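import Mathlib

set_option autoImplicit false

/-!
# "No new elements" lemma

`E ≤ L` fields, `L1` a subring of `L` containing `E`.  Let `x ∈ L` be a root of `F ∈ E[X]`, where
`F` splits over `L` with pairwise distinct roots, all lying in `L1`.  Let `y ∈ E(x)` be a root of
`g ∈ E[X]` such that `y` is the only root of `g` lying in `L1`.  Then `y ∈ E`.
-/

namespace Fermat.Agent.S28.Kummer

open Polynomial

theorem noNew {L : Type*} [Field L] (E : Subfield L) (L1 : Subring L)
    (hE : ∀ e ∈ E, e ∈ L1) {x : L} (F : Polynomial E) (s : Finset L)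
    (hs : F.map E.subtype = ∏ r ∈ s, (X - C r)) (hs1 : ∀ r ∈ s, r ∈ L1) (hx : x ∈ s)
    {y : L} (hy : y ∈ Subfield.closure ((E : Set L) ∪ {x}))
    (g : Polynomial E) (hgy : (g.map E.subtype).eval y = 0)
    (huniq : ∀ z ∈ L1, (g.map E.subtype).eval z = 0 → z = y) : y ∈ E := by
  classical
  have hprod_ne : (∏ r ∈ s, (X - C r) : L[X]) ≠ 0 :=
    Finset.prod_ne_zero_iff.mpr (fun r _ => X_sub_C_ne_zero r)
  have hFne : F ≠ 0 := by
    rintro rfl
    rw [Polynomial.map_zero] at hs
    exact hprod_ne hs.symm
  have hFx : aeval x F = 0 := by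
    have h1 : (F.map E.subtype).eval x = 0 := by
      rw [hs, eval_prod]
      exact Finset.prod_eq_zero hx (by simp)
    rw [eval_map] at h1
    exact h1
  have hxalg : IsAlgebraic E x := ⟨F, hFne, hFx⟩
  have hxint : IsIntegral E x := hxalg.isIntegral
  set f := minpoly E x with hf
  have hfF : f ∣ F := minpoly.dvd E x hFx
  have hfmonic : f.Monic := minpoly.monic hxint
  -- the roots of `f` in `L`
  have hdiv : f.map E.subtype ∣ ∏ r ∈ s, (X - C r) := by
    rw [← hs]; exact Polynomial.map_dvd _ hfF
  have hle : (f.map E.subtype).roots ≤ s.val := by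
    rw [← roots_prod_X_sub_C]; exact roots.le_of_dvd hprod_ne hdiv
  have hsplit : (f.map E.subtype).Splits :=
    Splits.of_dvd (Splits.prod fun r _ => Splits.X_sub_C r) hprod_ne hdiv
  have hnodup : (f.map E.subtype).roots.Nodup := Multiset.nodup_of_le hle s.nodup
  let T : Finset L := ⟨(f.map E.subtype).roots, hnodup⟩
  have hTcard : T.card = f.natDegree := by
    rw [Finset.card_mk, ← hsplit.natDegree_eq_card_roots, hfmonic.natDegree_map]
  have hT1 : ∀ r ∈ T, r ∈ L1 := fun r hr => hs1 r (Multiset.mem_of_le hle hr)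
  have hTroot : ∀ r ∈ T, (f.map E.subtype).eval r = 0 := fun r hr => by
    have hr' : r ∈ (f.map E.subtype).roots := hr
    exact (mem_roots'.mp hr').2
  -- `y = P(x)`
  have hyadj : y ∈ IntermediateField.adjoin E {x} := by
    have hrange : Set.range (algebraMap E L) = (E : Set L) := by
      ext z
      constructor
      · rintro ⟨e, rfl⟩; exact e.2
      · intro hz; exact ⟨⟨z, hz⟩, rfl⟩
    rw [← IntermediateField.mem_toSubfield, IntermediateField.adjoin_toSubfield, hrange]
    exact hy
  have hyalg : y ∈ (IntermediateField.adjoin E {x}).toSubalgebra := hyadj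
  rw [IntermediateField.adjoin_simple_toSubalgebra_of_isAlgebraic hxalg,
    Algebra.adjoin_singleton_eq_range_aeval] at hyalg
  obtain ⟨P, hP⟩ := hyalg
  set P' := P %ₘ f with hP'def
  have hP' : aeval x P' = y := by
    have h1 := modByMonic_add_div P f
    have h2 := congrArg (aeval x) h1
    rw [map_add, map_mul, minpoly.aeval, zero_mul, add_zero] at h2
    rw [h2]; exact hP
  have hdeg : P'.natDegree < f.natDegree :=
    natDegree_modByMonic_lt P hfmonic (minpoly.ne_one E x)
  -- `f ∣ g ∘ P'`
  have hcomp : aeval x (g.comp P') = 0 := by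
    rw [aeval_comp, hP']
    rw [eval_map] at hgy
    exact hgy
  obtain ⟨h, hh⟩ := minpoly.dvd E x hcomp
  -- each root `r` of `f`: `P'(r) = y`
  have hval : ∀ r ∈ T, (P'.map E.subtype).eval r = y := by
    intro r hr
    apply huniq
    · rw [eval_map, eval₂_eq_sum_range]
      exact Subring.sum_mem _ fun i _ =>
        Subring.mul_mem _ (hE _ (P'.coeff i).2) (Subring.pow_mem _ (hT1 r hr) i)
    · have h3 : ((g.comp P').map E.subtype).eval r = 0 := by
        rw [hh, Polynomial.map_mul, eval_mul, hTroot r hr, zero_mul]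
      rw [Polynomial.map_comp, eval_comp] at h3
      exact h3
  have hzero : P'.map E.subtype - C y = 0 := by
    apply eq_zero_of_natDegree_lt_card_of_eval_eq_zero' _ T
    · intro r hr
      rw [eval_sub, eval_C, hval r hr, sub_self]
    · rw [hTcard]
      calc (P'.map E.subtype - C y).natDegree
          ≤ max (P'.map E.subtype).natDegree (C y).natDegree := natDegree_sub_le _ _
        _ < f.natDegree := by
          rw [natDegree_C, max_eq_left (Nat.zero_le _)]
          exact lt_of_le_of_lt natDegree_map_le hdeg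
  have hy0 : y = E.subtype (P'.coeff 0) := by
    have h4 := congrArg (fun q => q.coeff 0) hzero
    simp only [coeff_sub, coeff_map, coeff_C_zero, coeff_zero] at h4
    exact (sub_eq_zero.mp h4).symm
  rw [hy0]
  exact (P'.coeff 0).2

end Fermat.Agent.S28.Kummer
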