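import Fermat.Agent.S28.Kummer.Adapter
import Fermat.Agent.S28.Kummer.NoNew

set_option autoImplicit false

/-!
# (Lin): `J(q^p) ∉ K(J(q^d) : d ∣ M)` for a prime `p ∤ M`

Proof by the "no new elements" lemma (`noNew`), inside `K((t))` with `q = t^(p M)`; no algebraic
closure of `K((t))`, no embeddings.  Inputs: the root lists of the modular equations of the
primes dividing `p * M` (`Kummer/Roots.lean`) and the base case for `p`.
-/

namespace Fermat.Agent.S28.Kummer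

open ModularCurve Polynomial

noncomputable section

section General

variable {K : Type*} [Field K]

theorem JJ_congr (c : Kˣ) {m m' : ℕ} [NeZero m] [NeZero m'] (h : m = m') : JJ c m = JJ c m' := by
  subst h
  rfl

theorem qExpand_algebraMap' (n : ℕ) [NeZero n] (a : K) :
    qExpand K n (algebraMap K (LaurentSeries K) a) = algebraMap K (LaurentSeries K) a :=
  (qExpandAlgHomC K n).commutes a

/-- Lemma N with both polynomials given as specialisations of two-variable integral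
polynomials at elements of `E`. -/
theorem noNew_specialize {L : Type*} [Field L] (E : Subfield L) (L1 : Subring L)
    (hE : ∀ e ∈ E, e ∈ L1) {x : L} (Φ : Polynomial (Polynomial ℤ)) {y₀ : L} (hy₀ : y₀ ∈ E)
    (s : Finset L) (hs : specialize Φ y₀ = ∏ r ∈ s, (X - C r)) (hs1 : ∀ r ∈ s, r ∈ L1)
    (hx : x ∈ s) {y : L} (hy : y ∈ Subfield.closure ((E : Set L) ∪ {x}))
    (Ψ : Polynomial (Polynomial ℤ)) {z₀ : L} (hz₀ : z₀ ∈ E)
    (hgy : (specialize Ψ z₀).eval y = 0)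
    (huniq : ∀ z ∈ L1, (specialize Ψ z₀).eval z = 0 → z = y) : y ∈ E := by
  have h1 : (specialize Φ (⟨y₀, hy₀⟩ : E)).map E.subtype = specialize Φ y₀ :=
    map_specialize E.subtype Φ ⟨y₀, hy₀⟩
  have h2 : (specialize Ψ (⟨z₀, hz₀⟩ : E)).map E.subtype = specialize Ψ z₀ :=
    map_specialize E.subtype Ψ ⟨z₀, hz₀⟩
  refine noNew E L1 hE (specialize Φ (⟨y₀, hy₀⟩ : E)) s (h1.trans hs) hs1 hx hy
    (specialize Ψ (⟨z₀, hz₀⟩ : E)) ?_ ?_
  · rw [h2]; exact hgy
  · intro z hz hz0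
    rw [h2] at hz0
    exact huniq z hz hz0

/-- The root list in terms of `TD.Jd`: the roots of `Φ_r(X, J(t^(m₀ r)))` are `J(t^(m₀ r²))`
and `r` further series, each lying in `K((t^e))` for every `e ∣ m₀` and having a non-zero
coefficient at `t^(-m₀)`. -/
theorem rootList_TD {r : ℕ} (hr : r.Prime) (D : Fermat.Agent.S28.TD.ModEq r) {ζ : Kˣ}
    (hζ : IsPrimitiveRoot ζ r) {m₀ : ℕ} (hm₀ : m₀ ≠ 0) :
    ∃ s : Finset (LaurentSeries K),
      specialize D.Φ (Fermat.Agent.S28.TD.Jd K (m₀ * r)) = ∏ x ∈ s, (X - C x) ∧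
      Fermat.Agent.S28.TD.Jd K (m₀ * r * r) ∈ s ∧
      ∀ x ∈ s, x = Fermat.Agent.S28.TD.Jd K (m₀ * r * r) ∨
        ((∀ (e : ℕ) [NeZero e], e ∣ m₀ → x ∈ (qExpand K e).range) ∧
          x.coeff (-(m₀ : ℤ)) ≠ 0) := by
  classical
  have : NeZero r := ⟨hr.ne_zero⟩
  have : NeZero m₀ := ⟨hm₀⟩
  have h := (ModEqData.ofTD D).specialize_eq_prod hr.one_lt hζ (1 : Kˣ) m₀
  rw [ModEqData.ofTD_Φ, one_pow, ← Jd_eq_JJ K (m₀ * r)] at h
  have hnone : rootFam (p := r) ζ (1 : Kˣ) m₀ none = Fermat.Agent.S28.TD.Jd K (m₀ * r * r) := by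
    show JJ (((1 : Kˣ) ^ r) ^ r) (m₀ * r * r) = _
    rw [one_pow, one_pow, ← Jd_eq_JJ K (m₀ * r * r)]
  refine ⟨Finset.univ.image (rootFam (p := r) ζ (1 : Kˣ) m₀), ?_, ?_, ?_⟩
  · rw [h, Finset.prod_image (fun a _ b _ hab => rootFam_injective hr.one_lt hζ 1 m₀ hab)]
  · exact Finset.mem_image.mpr ⟨none, Finset.mem_univ _, hnone⟩
  · intro x hx
    obtain ⟨i, -, rfl⟩ := Finset.mem_image.mp hx
    rcases i with _ | b
    · left; exact hnone
    · right
      refine ⟨?_, ?_⟩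
      · intro e _ hdvd
        show JJ (ζ ^ (b : ℕ) * 1) m₀ ∈ _
        obtain ⟨k, hk⟩ := hdvd
        have hk0 : NeZero k := ⟨by rintro rfl; exact hm₀ (by rw [hk, mul_zero])⟩
        refine ⟨JJ (ζ ^ (b : ℕ) * 1) k, ?_⟩
        rw [qExpand_JJ]
        exact JJ_congr _ hk.symm
      · show (JJ (ζ ^ (b : ℕ) * 1) m₀).coeff (-(m₀ : ℤ)) ≠ 0
        rw [JJ_coeff_neg]
        exact Units.ne_zero _

/-- The field generated over `K` by the series `J(t^(n d))`, `d ∣ M`, `d ≤ k`. -/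
def Ek (K : Type*) [Field K] (n M k : ℕ) : Subfield (LaurentSeries K) :=
  Subfield.closure (Set.range (algebraMap K (LaurentSeries K)) ∪
    {x | ∃ d, d ∣ M ∧ d ≤ k ∧ x = Fermat.Agent.S28.TD.Jd K (n * d)})

theorem Jd_mem_Ek {n M k d : ℕ} (hd : d ∣ M) (hk : d ≤ k) :
    Fermat.Agent.S28.TD.Jd K (n * d) ∈ Ek K n M k :=
  Subfield.subset_closure (Or.inr ⟨d, hd, hk, rfl⟩)

theorem Ek_succ_le_of_not_dvd {n M k : ℕ} (h : ¬ (k + 1) ∣ M) :
    Ek K n M (k + 1) ≤ Ek K n M k := by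
  refine Subfield.closure_le.mpr ?_
  rintro x (hx | ⟨d, hd, hk, rfl⟩)
  · exact Subfield.subset_closure (Or.inl hx)
  · have hdk : d ≤ k := by
      rcases Nat.lt_or_ge d (k + 1) with h1 | h1
      · omega
      · have : d = k + 1 := by omega
        subst this
        exact absurd hd h
    exact Jd_mem_Ek hd hdk

theorem Ek_succ_le {n M k : ℕ} :
    Ek K n M (k + 1) ≤
      Subfield.closure ((Ek K n M k : Set (LaurentSeries K)) ∪
        {Fermat.Agent.S28.TD.Jd K (n * (k + 1))}) := by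
  refine Subfield.closure_le.mpr ?_
  rintro x (hx | ⟨d, hd, hk, rfl⟩)
  · exact Subfield.subset_closure (Or.inl (Subfield.subset_closure (Or.inl hx)))
  · rcases Nat.lt_or_ge d (k + 1) with h1 | h1
    · exact Subfield.subset_closure (Or.inl (Jd_mem_Ek hd (by omega)))
    · have : d = k + 1 := by omega
      subst this
      exact Subfield.subset_closure (Or.inr rfl)

theorem Ek_le_range {p M k : ℕ} [NeZero p] (hM : M ≠ 0) :
    ∀ e ∈ Ek K (p * M) M k, e ∈ (qExpand K p).range := by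
  have h : Ek K (p * M) M k ≤ (qExpand K p).fieldRange := by
    refine Subfield.closure_le.mpr ?_
    rintro x (⟨a, rfl⟩ | ⟨d, hd, hk, rfl⟩)
    · exact ⟨algebraMap K _ a, qExpand_algebraMap' p a⟩
    · have hd0 : d ≠ 0 := by
        rintro rfl
        exact hM (Nat.eq_zero_of_zero_dvd hd)
      exact ⟨Fermat.Agent.S28.TD.Jd K (M * d), by
        rw [Fermat.Agent.S28.TD.qExpand_Jd K p (M * d) (Nat.mul_ne_zero hM hd0), mul_assoc]⟩
  intro e he
  exact h he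

/-- The induction step: `J(t^(pM·p))` cannot be created by adjoining `J(t^(pM·(k+1)))`. -/
theorem Ek_step {p M : ℕ} (hp : p.Prime) (hM : M ≠ 0) (hpM : ¬ p ∣ M)
    (hζ : ∀ r : ℕ, r.Prime → r ∣ p * M → ∃ ζ : Kˣ, IsPrimitiveRoot ζ r)
    (hME : ∀ r : ℕ, r.Prime → r ∣ p * M → Nonempty (Fermat.Agent.S28.TD.ModEq r))
    (k : ℕ) (hk : 1 ≤ k) (hdvd : (k + 1) ∣ M)
    (hmem : Fermat.Agent.S28.TD.Jd K (p * M * p) ∈ Ek K (p * M) M (k + 1)) :
    Fermat.Agent.S28.TD.Jd K (p * M * p) ∈ Ek K (p * M) M k := by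
  have : NeZero p := ⟨hp.ne_zero⟩
  have hrp : (k + 1).minFac.Prime := Nat.minFac_prime (by omega)
  obtain ⟨d', hd'⟩ : (k + 1).minFac ∣ (k + 1) := Nat.minFac_dvd (k + 1)
  obtain ⟨e, he⟩ := hdvd
  generalize (k + 1).minFac = r at hrp hd'
  have hr2 : 2 ≤ r := hrp.two_le
  have hd'0 : d' ≠ 0 := by
    rintro rfl
    omega
  have he0 : e ≠ 0 := by
    rintro rfl
    exact hM (by rw [he, mul_zero])
  have hd'k : d' ≤ k := by
    have h1 : 2 * d' ≤ r * d' := Nat.mul_le_mul_right d' hr2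
    have h2 : 1 ≤ d' := Nat.pos_of_ne_zero hd'0
    omega
  have hd'M : d' ∣ M := ⟨r * e, by rw [he, hd']; ring⟩
  have hrM : r ∣ p * M := Dvd.dvd.mul_left ⟨d' * e, by rw [he, hd']; ring⟩ p
  obtain ⟨ζr, hζr⟩ := hζ r hrp hrM
  obtain ⟨Dr⟩ := hME r hrp hrM
  obtain ⟨ζp, hζp⟩ := hζ p hp (Dvd.intro _ rfl)
  obtain ⟨Dp⟩ := hME p hp (Dvd.intro _ rfl)
  -- the root list for `F = Φ_r(X, J(t^(pM d')))`
  have hm₀0 : p * d' * e * d' ≠ 0 :=
    Nat.mul_ne_zero (Nat.mul_ne_zero (Nat.mul_ne_zero hp.ne_zero hd'0) he0) hd'0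
  obtain ⟨s, hs, hxs, hsr⟩ := rootList_TD (K := K) hrp Dr hζr hm₀0
  have e1 : p * d' * e * d' * r = p * M * d' := by rw [he, hd']; ring
  have e2 : p * d' * e * d' * r * r = p * M * (k + 1) := by rw [he, hd']; ring
  rw [e1] at hs
  rw [e2] at hxs hsr
  -- the root list for `g = Φ_p(X, J(t^(pM)))`
  obtain ⟨s', hs', hys', hsr'⟩ := rootList_TD (K := K) hp Dp hζp hM
  have e3 : M * p = p * M * 1 := by ring
  have e4 : M * p * p = p * M * p := by ring
  rw [e3] at hs'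
  rw [e4] at hys' hsr'
  refine noNew_specialize (Ek K (p * M) M k) (qExpand K p).range (Ek_le_range hM) Dr.Φ
    (Jd_mem_Ek hd'M hd'k) s hs ?_ hxs (Ek_succ_le hmem) Dp.Φ (Jd_mem_Ek (one_dvd M) hk) ?_ ?_
  · intro x hx
    rcases hsr x hx with rfl | ⟨h1, -⟩
    · exact ⟨Fermat.Agent.S28.TD.Jd K (M * (k + 1)), by
        rw [Fermat.Agent.S28.TD.qExpand_Jd K p (M * (k + 1))
          (Nat.mul_ne_zero hM (Nat.succ_ne_zero k)), mul_assoc]⟩
    · exact h1 p ⟨d' * e * d', by ring⟩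
  · rw [hs', Polynomial.eval_prod]
    exact Finset.prod_eq_zero hys' (by simp)
  · intro z hz hz0
    rw [hs', Polynomial.eval_prod, Finset.prod_eq_zero_iff] at hz0
    obtain ⟨x, hx, hx0⟩ := hz0
    have hzx : z = x := by
      rw [Polynomial.eval_sub, Polynomial.eval_X, Polynomial.eval_C, sub_eq_zero] at hx0
      exact hx0
    subst hzx
    rcases hsr' z hx with h | ⟨-, h2⟩
    · exact h
    · exfalso
      obtain ⟨w, rfl⟩ := hz
      refine h2 (qExpand_coeff_of_not_dvd p w ?_)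
      rw [Int.dvd_neg]
      exact_mod_cast hpM

/-- `J(t^(pM·p)) ∉ K(J(t^(pM·d)) : d ∣ M, d ≤ k)` for all `k ≥ 1`. -/
theorem not_mem_Ek {p M : ℕ} (hp : p.Prime) (hM : M ≠ 0) (hpM : ¬ p ∣ M)
    (hζ : ∀ r : ℕ, r.Prime → r ∣ p * M → ∃ ζ : Kˣ, IsPrimitiveRoot ζ r)
    (hME : ∀ r : ℕ, r.Prime → r ∣ p * M → Nonempty (Fermat.Agent.S28.TD.ModEq r))
    (hBC : Fermat.Agent.S28.TD.Jd K p ∉
      IntermediateField.adjoin K {Fermat.Agent.S28.TD.Jd K 1})
    (k : ℕ) (hk : 1 ≤ k) :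
    Fermat.Agent.S28.TD.Jd K (p * M * p) ∉ Ek K (p * M) M k := by
  have : NeZero (p * M) := ⟨Nat.mul_ne_zero hp.ne_zero hM⟩
  induction k, hk using Nat.le_induction with
  | base =>
    intro hmem
    apply hBC
    have hle : Ek K (p * M) M 1 ≤
        (Subfield.closure (Set.range (algebraMap K (LaurentSeries K)) ∪
          {Fermat.Agent.S28.TD.Jd K 1})).map (qExpand K (p * M)) := by
      refine Subfield.closure_le.mpr ?_
      rintro x (⟨a, rfl⟩ | ⟨d, hd, hd1, rfl⟩)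
      · exact Subfield.mem_map.mpr ⟨algebraMap K _ a,
          Subfield.subset_closure (Or.inl ⟨a, rfl⟩), qExpand_algebraMap' _ a⟩
      · have hd0 : d ≠ 0 := by
          rintro rfl
          exact hM (Nat.eq_zero_of_zero_dvd hd)
        have hd1' : d = 1 := by omega
        subst hd1'
        exact Subfield.mem_map.mpr ⟨Fermat.Agent.S28.TD.Jd K 1,
          Subfield.subset_closure (Or.inr rfl),
          Fermat.Agent.S28.TD.qExpand_Jd K (p * M) 1 one_ne_zero⟩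
    obtain ⟨z, hz, hzeq⟩ := Subfield.mem_map.mp (hle hmem)
    rw [← Fermat.Agent.S28.TD.qExpand_Jd K (p * M) p hp.ne_zero] at hzeq
    have hz' : z = Fermat.Agent.S28.TD.Jd K p := qExpand_injective (p * M) hzeq
    rw [← hz', ← IntermediateField.mem_toSubfield, IntermediateField.adjoin_toSubfield]
    exact hz
  | succ k hk ih =>
    intro hmem
    by_cases hdvd : (k + 1) ∣ M
    · exact ih (Ek_step hp hM hpM hζ hME k hk hdvd hmem)
    · exact ih (Ek_succ_le_of_not_dvd hdvd hmem)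

/-- (Lin) over a field with enough roots of unity. -/
theorem Jd_not_mem_FF_of_roots {p M : ℕ} (hp : p.Prime) (hM : M ≠ 0) (hpM : ¬ p ∣ M)
    (hζ : ∀ r : ℕ, r.Prime → r ∣ p * M → ∃ ζ : Kˣ, IsPrimitiveRoot ζ r)
    (hME : ∀ r : ℕ, r.Prime → r ∣ p * M → Nonempty (Fermat.Agent.S28.TD.ModEq r))
    (hBC : Fermat.Agent.S28.TD.Jd K p ∉
      IntermediateField.adjoin K {Fermat.Agent.S28.TD.Jd K 1}) :
    Fermat.Agent.S28.TD.Jd K p ∉ Fermat.Agent.S28.TD.FF K M 1 := by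
  intro hmem
  have : NeZero (p * M) := ⟨Nat.mul_ne_zero hp.ne_zero hM⟩
  refine not_mem_Ek hp hM hpM hζ hME hBC M (Nat.one_le_iff_ne_zero.mpr hM) ?_
  have h1 : Fermat.Agent.S28.TD.Jd K p ∈
      Subfield.closure (Set.range (algebraMap K (LaurentSeries K)) ∪
        ((fun d => Fermat.Agent.S28.TD.Jd K (1 * d)) '' {d | d ∣ M})) := by
    rw [← IntermediateField.adjoin_toSubfield]
    exact hmem
  have h2 : qExpand K (p * M) (Fermat.Agent.S28.TD.Jd K p) ∈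
      (Subfield.closure (Set.range (algebraMap K (LaurentSeries K)) ∪
        ((fun d => Fermat.Agent.S28.TD.Jd K (1 * d)) '' {d | d ∣ M}))).map
          (qExpand K (p * M)) :=
    Subfield.mem_map.mpr ⟨_, h1, rfl⟩
  rw [RingHom.map_field_closure, Fermat.Agent.S28.TD.qExpand_Jd K (p * M) p hp.ne_zero] at h2
  refine (Subfield.closure_le.mpr ?_) h2
  rintro x ⟨y, (⟨a, rfl⟩ | ⟨d, hd, rfl⟩), rfl⟩
  · exact Subfield.subset_closure (Or.inl ⟨a, (qExpand_algebraMap' _ a).symm⟩)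
  · have hd' : d ∣ M := hd
    have hd0 : d ≠ 0 := by
      rintro rfl
      exact hM (Nat.eq_zero_of_zero_dvd hd')
    refine Subfield.subset_closure (Or.inr ⟨d, hd',
      Nat.le_of_dvd (Nat.pos_of_ne_zero hM) hd', ?_⟩)
    show qExpand K (p * M) (Fermat.Agent.S28.TD.Jd K (1 * d)) = _
    rw [one_mul, Fermat.Agent.S28.TD.qExpand_Jd K (p * M) d hd0]

theorem exists_primitiveRoot_unit [IsAlgClosed K] {r : ℕ} (hr0 : r ≠ 0) (hr : (r : K) ≠ 0) :
    ∃ ζ : Kˣ, IsPrimitiveRoot ζ r := by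
  have : NeZero (r : K) := ⟨hr⟩
  obtain ⟨ζ₀, hζ₀⟩ := HasEnoughRootsOfUnity.exists_primitiveRoot K r
  have hζ₀ne : ζ₀ ≠ 0 := hζ₀.ne_zero hr0
  refine ⟨Units.mk0 ζ₀ hζ₀ne, ?_⟩
  have h : ((Units.mk0 ζ₀ hζ₀ne : Kˣ) : K) = ζ₀ := rfl
  exact IsPrimitiveRoot.coe_units_iff.mp (by rw [h]; exact hζ₀)

end General

/-- **(Lin)**, task D5: for `K` algebraically closed, `p` prime not dividing `M`, `p M ≠ 0` in
`K`: `J(q^p) ∉ K(J(q^d) : d ∣ M)`. -/
theorem Jd_not_mem_FF (K : Type) [Field K] [IsAlgClosed K] (p M : ℕ) (hp : p.Prime) (hM : M ≠ 0)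
    (hpM : ¬ p ∣ M) (hchar : ((p * M : ℕ) : K) ≠ 0)
    (hME : ∀ r : ℕ, r.Prime → r ∣ p * M → Nonempty (Fermat.Agent.S28.TD.ModEq r))
    (hBC : Fermat.Agent.S28.TD.BaseCase p) :
    Fermat.Agent.S28.TD.Jd K p ∉ Fermat.Agent.S28.TD.FF K M 1 := by
  have hpK : (p : K) ≠ 0 := by
    intro h
    apply hchar
    rw [Nat.cast_mul, h, zero_mul]
  refine Jd_not_mem_FF_of_roots hp hM hpM ?_ hME (hBC K hpK)
  intro r hr hrdvd
  refine exists_primitiveRoot_unit hr.ne_zero ?_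
  intro h
  apply hchar
  obtain ⟨c, hc⟩ := hrdvd
  rw [hc, Nat.cast_mul, h, zero_mul]

/-- Descent of (Lin) to an arbitrary field `κ` in which `p M ≠ 0`. -/
theorem Jd_not_mem_FF_field (κ : Type) [Field κ] (p M : ℕ) (hp : p.Prime) (hM : M ≠ 0)
    (hpM : ¬ p ∣ M) (hchar : ((p * M : ℕ) : κ) ≠ 0)
    (hME : ∀ r : ℕ, r.Prime → r ∣ p * M → Nonempty (Fermat.Agent.S28.TD.ModEq r))
    (hBC : Fermat.Agent.S28.TD.BaseCase p) :
    Fermat.Agent.S28.TD.Jd κ p ∉ Fermat.Agent.S28.TD.FF κ M 1 := by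
  intro hmem
  set f : κ →+* AlgebraicClosure κ := algebraMap κ (AlgebraicClosure κ) with hf
  have hchar' : ((p * M : ℕ) : AlgebraicClosure κ) ≠ 0 := by
    intro h
    apply hchar
    have h1 : f ((p * M : ℕ) : κ) = 0 := by rw [map_natCast]; exact h
    exact (map_eq_zero f).mp h1
  refine Jd_not_mem_FF (AlgebraicClosure κ) p M hp hM hpM hchar' hME hBC ?_
  have h1 : Fermat.Agent.S28.TD.Jd κ p ∈
      Subfield.closure (Set.range (algebraMap κ (LaurentSeries κ)) ∪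
        ((fun d => Fermat.Agent.S28.TD.Jd κ (1 * d)) '' {d | d ∣ M})) := by
    rw [← IntermediateField.adjoin_toSubfield]
    exact hmem
  have h2 : coeffMap f (Fermat.Agent.S28.TD.Jd κ p) ∈
      (Subfield.closure (Set.range (algebraMap κ (LaurentSeries κ)) ∪
        ((fun d => Fermat.Agent.S28.TD.Jd κ (1 * d)) '' {d | d ∣ M}))).map (coeffMap f) :=
    Subfield.mem_map.mpr ⟨_, h1, rfl⟩
  rw [RingHom.map_field_closure, Fermat.Agent.S28.TD.coeffMap_Jd] at h2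
  rw [← IntermediateField.mem_toSubfield, Fermat.Agent.S28.TD.FF,
    IntermediateField.adjoin_toSubfield]
  refine (Subfield.closure_le.mpr ?_) h2
  rintro x ⟨y, (⟨a, rfl⟩ | ⟨d, hd, rfl⟩), rfl⟩
  · refine Subfield.subset_closure (Or.inl ⟨f a, ?_⟩)
    rw [algebraMap_laurentSeries_eq_single, algebraMap_laurentSeries_eq_single, coeffMap_single]
  · refine Subfield.subset_closure (Or.inr ⟨d, hd, ?_⟩)
    show Fermat.Agent.S28.TD.Jd (AlgebraicClosure κ) (1 * d) =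
      coeffMap f (Fermat.Agent.S28.TD.Jd κ (1 * d))
    rw [Fermat.Agent.S28.TD.coeffMap_Jd]

end

end Fermat.Agent.S28.Kummer
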