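import Mathlib
import Fermat.Prelude.Def_ModularCurve_JqCoeff
import Fermat.Prelude.Def_ModularCurve_LaurentCoeff

set_option autoImplicit false

/-!
# The substitutions `t ↦ c • t` on Laurent series and the series `J (c • t ^ m)`

* `twist c : LaurentSeries K →+* LaurentSeries K` is the substitution `t ↦ c • t` (`c` a unit).
* `JJ c m = J (c • t ^ m)`, where `J = jqModC K` is the `j`-invariant `q`-series over `K`.
-/

namespace Fermat.Agent.S28.Kummer

open HahnSeries ModularCurve

noncomputable section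

variable {K : Type*} [CommRing K]

/-- Coefficient function of the twist. -/
def twistFun (c : Kˣ) (f : LaurentSeries K) : LaurentSeries K :=
  ⟨fun n => ((c ^ n : Kˣ) : K) * f.coeff n,
    f.isPWO_support.mono (fun n hn => by
      simp only [Function.mem_support, ne_eq] at hn
      intro h
      exact hn (by rw [h, mul_zero]))⟩

@[simp]
theorem twistFun_coeff (c : Kˣ) (f : LaurentSeries K) (n : ℤ) :
    (twistFun c f).coeff n = ((c ^ n : Kˣ) : K) * f.coeff n := rfl

theorem twistFun_support (c : Kˣ) (f : LaurentSeries K) : (twistFun c f).support = f.support := by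
  ext n
  simp only [HahnSeries.mem_support, twistFun_coeff, ne_eq]
  rw [Units.mul_right_eq_zero]

/-- The substitution `t ↦ c • t` on Laurent series, for a unit `c`. -/
def twist (c : Kˣ) : LaurentSeries K →+* LaurentSeries K where
  toFun f := twistFun c f
  map_zero' := by ext n; simp
  map_one' := by
    ext n
    simp only [twistFun_coeff, HahnSeries.coeff_one]
    split_ifs with h
    · subst h; simp
    · simp
  map_add' f g := by ext n; simp [mul_add]
  map_mul' f g := by
    ext n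
    rw [twistFun_coeff, HahnSeries.coeff_mul, HahnSeries.coeff_mul, Finset.mul_sum]
    refine Finset.sum_congr (Finset.ext fun ij => ?_) (fun ij hij => ?_)
    · simp only [Finset.mem_antidiagonal]
      rw [twistFun_support, twistFun_support]
    · have h := (Finset.mem_antidiagonal.mp hij).2.2
      rw [twistFun_coeff, twistFun_coeff, ← h, zpow_add, Units.val_mul]
      ring

@[simp]
theorem twist_coeff (c : Kˣ) (f : LaurentSeries K) (n : ℤ) :
    (twist c f).coeff n = ((c ^ n : Kˣ) : K) * f.coeff n := rfl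

@[simp]
theorem twist_one (f : LaurentSeries K) : twist (1 : Kˣ) f = f := by
  ext n; simp

theorem twist_twist (c c' : Kˣ) (f : LaurentSeries K) :
    twist c (twist c' f) = twist (c * c') f := by
  ext n
  simp only [twist_coeff, mul_zpow, Units.val_mul, mul_assoc]

theorem twist_injective (c : Kˣ) : Function.Injective (twist (K := K) c) := by
  intro f g h
  have := congrArg (twist c⁻¹) h
  simpa [twist_twist] using this

@[simp]
theorem twist_single (c : Kˣ) (n : ℤ) (r : K) :
    twist c (HahnSeries.single n r) = HahnSeries.single n (((c ^ n : Kˣ) : K) * r) := by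
  ext k
  rw [twist_coeff]
  rcases eq_or_ne k n with rfl | hk
  · simp
  · simp [HahnSeries.coeff_single_of_ne hk]

@[simp]
theorem twist_C (c : Kˣ) (r : K) : twist c (HahnSeries.C r) = HahnSeries.C r := by
  ext k
  rw [twist_coeff]
  rcases eq_or_ne k 0 with rfl | hk
  · simp
  · simp [HahnSeries.C_apply, HahnSeries.coeff_single_of_ne hk]

/-- `twist` commutes with change of coefficients. -/
theorem coeffMap_twist {K' : Type*} [CommRing K'] (φ : K →+* K') (c : Kˣ) (f : LaurentSeries K) :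
    coeffMap φ (twist c f) = twist (Units.map (φ : K →* K') c) (coeffMap φ f) := by
  ext n
  simp only [coeffMap_coeff, twist_coeff, map_mul]
  congr 1
  rw [← map_zpow]
  rfl

/-- `twist` and the substitution `t ↦ t ^ m`. -/
theorem twist_qExpand (m : ℕ) [NeZero m] (c : Kˣ) (f : LaurentSeries K) :
    twist c (qExpand K m f) = qExpand K m (twist (c ^ m) f) := by
  ext n
  rw [twist_coeff]
  by_cases hn : (m : ℤ) ∣ n
  · obtain ⟨k, rfl⟩ := hn
    rw [qExpand_coeff_mul, qExpand_coeff_mul, twist_coeff, zpow_mul, zpow_natCast]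
  · rw [qExpand_coeff_of_not_dvd m f hn, qExpand_coeff_of_not_dvd m _ hn, mul_zero]

instance instNeZeroMul (k m : ℕ) [NeZero k] [NeZero m] : NeZero (k * m) :=
  ⟨Nat.mul_ne_zero (NeZero.ne k) (NeZero.ne m)⟩

/-- `JJ c m = J (c • t ^ m)`. -/
def JJ (c : Kˣ) (m : ℕ) [NeZero m] : LaurentSeries K := qExpand K m (twist c (jqModC K))

theorem JJ_one (m : ℕ) [NeZero m] : JJ (1 : Kˣ) m = jqNModC K m := by
  rw [JJ, twist_one, jqNModC]

theorem JJ_one_one : JJ (1 : Kˣ) 1 = jqModC K := by
  rw [JJ_one, jqNModC_one]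

theorem twist_JJ (ξ c : Kˣ) (m : ℕ) [NeZero m] : twist ξ (JJ c m) = JJ (ξ ^ m * c) m := by
  rw [JJ, JJ, twist_qExpand, twist_twist]

theorem qExpand_JJ (k : ℕ) [NeZero k] (c : Kˣ) (m : ℕ) [NeZero m] :
    qExpand K k (JJ c m) = JJ c (k * m) := by
  rw [JJ, JJ, qExpand_qExpand]

theorem coeffMap_jqModC {K' : Type*} [CommRing K'] (φ : K →+* K') :
    coeffMap φ (jqModC K) = jqModC K' :=
  map_jqModC φ

theorem coeffMap_qExpand' {K' : Type*} [CommRing K'] (φ : K →+* K') (m : ℕ) [NeZero m]
    (f : LaurentSeries K) : coeffMap φ (qExpand K m f) = qExpand K' m (coeffMap φ f) := by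
  ext n
  rw [coeffMap_coeff]
  by_cases hn : (m : ℤ) ∣ n
  · obtain ⟨k, rfl⟩ := hn
    rw [qExpand_coeff_mul, qExpand_coeff_mul, coeffMap_coeff]
  · rw [qExpand_coeff_of_not_dvd m f hn, qExpand_coeff_of_not_dvd m _ hn, map_zero]

theorem coeffMap_JJ {K' : Type*} [CommRing K'] (φ : K →+* K') (c : Kˣ) (m : ℕ) [NeZero m] :
    coeffMap φ (JJ c m) = JJ (Units.map (φ : K →* K') c) m := by
  rw [JJ, JJ, coeffMap_qExpand', coeffMap_twist, coeffMap_jqModC]

/-! ### Coefficients of `JJ c m` -/

theorem jqModC_coeff_neg_one : (jqModC K).coeff (-1) = 1 := by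
  have h : jqModC K = coeffMap (Int.castRingHom K) (jqModC ℤ) := (coeffMap_jqModC _).symm
  have h2 : (jqModC ℚ).coeff (-1) = 1 := coeff_jq_neg_one
  have h3 : jqModC ℚ = coeffMap (Int.castRingHom ℚ) (jqModC ℤ) := (coeffMap_jqModC _).symm
  rw [h3, coeffMap_coeff] at h2
  have h4 : (jqModC ℤ).coeff (-1) = 1 := by
    simp only [eq_intCast] at h2
    exact_mod_cast h2
  rw [h, coeffMap_coeff, h4, map_one]

theorem jqModC_coeff_of_lt {k : ℤ} (hk : k < -1) : (jqModC K).coeff k = 0 := by
  have h : jqModC K = coeffMap (Int.castRingHom K) (jqModC ℤ) := (coeffMap_jqModC _).symm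
  have h2 : (jqModC ℚ).coeff k = 0 := coeff_jq_of_lt hk
  have h3 : jqModC ℚ = coeffMap (Int.castRingHom ℚ) (jqModC ℤ) := (coeffMap_jqModC _).symm
  rw [h3, coeffMap_coeff] at h2
  have h4 : (jqModC ℤ).coeff k = 0 := by
    simp only [eq_intCast] at h2
    exact_mod_cast h2
  rw [h, coeffMap_coeff, h4, map_zero]

theorem JJ_coeff_neg (c : Kˣ) (m : ℕ) [NeZero m] :
    (JJ c m).coeff (-(m : ℤ)) = ((c⁻¹ : Kˣ) : K) := by
  have h : (-(m : ℤ)) = (m : ℤ) * (-1) := by ring
  rw [JJ, h, qExpand_coeff_mul, twist_coeff, jqModC_coeff_neg_one, mul_one, zpow_neg_one]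

theorem JJ_coeff_of_lt (c : Kˣ) (m : ℕ) [NeZero m] {n : ℤ} (hn : n < -(m : ℤ)) :
    (JJ c m).coeff n = 0 := by
  rw [JJ]
  by_cases hd : (m : ℤ) ∣ n
  · obtain ⟨k, rfl⟩ := hd
    rw [qExpand_coeff_mul, twist_coeff]
    have hm : (0 : ℤ) < m := by exact_mod_cast Nat.pos_of_ne_zero (NeZero.ne m)
    have hk : k < -1 := by
      by_contra hk
      rw [not_lt] at hk
      nlinarith
    rw [jqModC_coeff_of_lt hk, mul_zero]
  · exact qExpand_coeff_of_not_dvd m _ hd

theorem JJ_coeff_of_not_dvd (c : Kˣ) (m : ℕ) [NeZero m] {n : ℤ} (hn : ¬ (m : ℤ) ∣ n) :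
    (JJ c m).coeff n = 0 :=
  qExpand_coeff_of_not_dvd m _ hn

/-- The series `JJ c m` determines `c` and `m`. -/
theorem JJ_injective [Nontrivial K] {c c' : Kˣ} {m m' : ℕ} [NeZero m] [NeZero m']
    (h : JJ c m = JJ c' m') : m = m' ∧ c = c' := by
  have key : ∀ {c c' : Kˣ} {m m' : ℕ} [NeZero m] [NeZero m'], JJ c m = JJ c' m' → m' ≤ m := by
    intro c c' m m' _ _ h
    by_contra hlt
    rw [not_le] at hlt
    have h1 : (JJ c' m').coeff (-(m' : ℤ)) = ((c'⁻¹ : Kˣ) : K) := JJ_coeff_neg c' m'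
    rw [← h, JJ_coeff_of_lt c m (by omega)] at h1
    exact (Units.ne_zero _) h1.symm
  have hm : m = m' := le_antisymm (key h.symm) (key h)
  subst hm
  refine ⟨rfl, ?_⟩
  have h1 := congrArg (fun f => f.coeff (-(m : ℤ))) h
  simp only [JJ_coeff_neg] at h1
  exact inv_injective (Units.ext h1)

end

end Fermat.Agent.S28.Kummer
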