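import Mathlib
import Fermat.Agent.S28.Kummer.Twist

set_option autoImplicit false

/-!
# Modular equation data and the root list of `Φ(X, J (c • t ^ m))`

`ModEqData p` packages a two-variable integral polynomial `Φ` (a polynomial in `X` over `ℤ[Y]`),
monic of degree `p + 1` in `X`, with `Φ(j(q^p), j(q)) = 0` and `Φ(j(q), j(q^p)) = 0` in `ℤ((q))`.
From these two relations alone we get, over every field `K` containing a primitive `p`-th root of
unity, the complete factorisation of `Φ(X, J(c^p • t^(p m)))` in `K((t))[X]`.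
-/

namespace Fermat.Agent.S28.Kummer

open HahnSeries ModularCurve Polynomial

noncomputable section

/-- Evaluation of the inner variable `Y` at `y`. -/
def evalIn {A : Type*} [CommRing A] (y : A) : Polynomial ℤ →+* A :=
  Polynomial.eval₂RingHom (Int.castRingHom A) y

theorem evalIn_X {A : Type*} [CommRing A] (y : A) : evalIn y Polynomial.X = y := by
  simp [evalIn]

theorem map_comp_evalIn {A B : Type*} [CommRing A] [CommRing B] (φ : A →+* B) (y : A) :
    φ.comp (evalIn y) = evalIn (φ y) := by
  refine Polynomial.ringHom_ext' (RingHom.ext_int _ _) ?_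
  simp [evalIn]

/-- The value `Φ(x, y)` of a two-variable polynomial `Φ ∈ ℤ[Y][X]`. -/
def ev {A : Type*} [CommRing A] (Φ : Polynomial (Polynomial ℤ)) (x y : A) : A :=
  Φ.eval₂ (evalIn y) x

/-- The one-variable polynomial `Φ(X, y) ∈ A[X]`. -/
def specialize {A : Type*} [CommRing A] (Φ : Polynomial (Polynomial ℤ)) (y : A) : Polynomial A :=
  Φ.map (evalIn y)

theorem eval_specialize {A : Type*} [CommRing A] (Φ : Polynomial (Polynomial ℤ)) (x y : A) :
    (specialize Φ y).eval x = ev Φ x y := by
  rw [specialize, ev, Polynomial.eval_map]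

theorem map_ev {A B : Type*} [CommRing A] [CommRing B] (φ : A →+* B)
    (Φ : Polynomial (Polynomial ℤ)) (x y : A) : φ (ev Φ x y) = ev Φ (φ x) (φ y) := by
  rw [ev, ev, Polynomial.hom_eval₂, map_comp_evalIn]

theorem map_specialize {A B : Type*} [CommRing A] [CommRing B] (φ : A →+* B)
    (Φ : Polynomial (Polynomial ℤ)) (y : A) :
    (specialize Φ y).map φ = specialize Φ (φ y) := by
  rw [specialize, specialize, Polynomial.map_map, map_comp_evalIn]

theorem specialize_monic {A : Type*} [CommRing A] {Φ : Polynomial (Polynomial ℤ)} (h : Φ.Monic)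
    (y : A) : (specialize Φ y).Monic := h.map _

theorem natDegree_specialize {A : Type*} [CommRing A] [Nontrivial A]
    {Φ : Polynomial (Polynomial ℤ)} (h : Φ.Monic) (y : A) :
    (specialize Φ y).natDegree = Φ.natDegree := h.natDegree_map _

/-- Modular equation data at a prime `p` (purely integral; no roots of unity). -/
structure ModEqData (p : ℕ) [NeZero p] where
  /-- the modular polynomial, as a polynomial in `X` over `ℤ[Y]` -/
  Φ : Polynomial (Polynomial ℤ)
  monic : Φ.Monic
  natDegree_eq : Φ.natDegree = p + 1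
  /-- `Φ(j(q^p), j(q)) = 0` -/
  rel₁ : ev Φ (jqNModC ℤ p) (jqModC ℤ) = 0
  /-- `Φ(j(q), j(q^p)) = 0` -/
  rel₂ : ev Φ (jqModC ℤ) (jqNModC ℤ p) = 0

variable {p : ℕ} [NeZero p]

section Relations

variable {K : Type*} [CommRing K]

/-- The ring hom `f(q) ↦ f(c • t ^ m)` from `ℤ((q))` to `K((t))`. -/
def substHom (c : Kˣ) (m : ℕ) [NeZero m] : LaurentSeries ℤ →+* LaurentSeries K :=
  (qExpand K m).comp ((twist c).comp (coeffMap (Int.castRingHom K)))

theorem substHom_jqModC (c : Kˣ) (m : ℕ) [NeZero m] : substHom c m (jqModC ℤ) = JJ c m := by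
  simp only [substHom, RingHom.comp_apply]
  rw [coeffMap_jqModC, JJ]

theorem substHom_jqNModC (c : Kˣ) (m : ℕ) [NeZero m] :
    substHom c m (jqNModC ℤ p) = JJ (c ^ p) (m * p) := by
  simp only [substHom, RingHom.comp_apply, jqNModC]
  rw [coeffMap_qExpand', coeffMap_jqModC, twist_qExpand, qExpand_qExpand, JJ]

/-- `J(c^p • t^(m p))` is a root of `Φ(X, J(c • t^m))`. -/
theorem ModEqData.ev_mul (data : ModEqData p) (c : Kˣ) (m : ℕ) [NeZero m] :
    ev data.Φ (JJ (c ^ p) (m * p)) (JJ c m) = 0 := by
  have h := congrArg (substHom c m) data.rel₁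
  rwa [map_ev, substHom_jqNModC, substHom_jqModC, map_zero] at h

/-- `J(c • t^m)` is a root of `Φ(X, J(c^p • t^(m p)))`. -/
theorem ModEqData.ev_div (data : ModEqData p) (c : Kˣ) (m : ℕ) [NeZero m] :
    ev data.Φ (JJ c m) (JJ (c ^ p) (m * p)) = 0 := by
  have h := congrArg (substHom c m) data.rel₂
  rwa [map_ev, substHom_jqNModC, substHom_jqModC, map_zero] at h

end Relations

section RootList

variable {K : Type*} [Field K]

/-- The list of `p + 1` roots of `Φ(X, J(c^p • t^(m p)))`: index `none` is the "multiplication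
root" `J(c^(p^2) • t^(m p^2))`, index `some b` the "division root" `J(ζ^b c • t^m)`. -/
def rootFam (ζ : Kˣ) (c : Kˣ) (m : ℕ) [NeZero m] : Option (Fin p) → LaurentSeries K
  | none => JJ ((c ^ p) ^ p) (m * p * p)
  | some b => JJ (ζ ^ (b : ℕ) * c) m

theorem rootFam_injective (hp : 1 < p) {ζ : Kˣ} (hζ : IsPrimitiveRoot ζ p) (c : Kˣ) (m : ℕ)
    [NeZero m] : Function.Injective (rootFam (p := p) ζ c m) := by
  have hm := Nat.pos_of_ne_zero (NeZero.ne m)
  have hne : m * p * p ≠ m := by
    have h1 : m * 1 < m * (p * p) := by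
      apply Nat.mul_lt_mul_of_pos_left _ hm
      nlinarith
    have : m * p * p = m * (p * p) := by ring
    omega
  intro x y hxy
  rcases x with _ | b <;> rcases y with _ | b'
  · rfl
  · exact absurd (JJ_injective hxy).1 hne
  · exact absurd (JJ_injective hxy).1.symm hne
  · have h := (JJ_injective hxy).2
    have h2 : ζ ^ (b : ℕ) = ζ ^ (b' : ℕ) := mul_right_cancel h
    have := hζ.pow_inj b.2 b'.2 h2
    exact congrArg some (Fin.ext this)

/-- every member of `rootFam` is a root of `Φ(X, J(c^p • t^(m p)))`. -/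
theorem ModEqData.eval_rootFam (data : ModEqData p) {ζ : Kˣ} (hζ : ζ ^ p = 1) (c : Kˣ) (m : ℕ)
    [NeZero m] (i : Option (Fin p)) :
    (specialize data.Φ (JJ (c ^ p) (m * p))).eval (rootFam ζ c m i) = 0 := by
  rw [eval_specialize]
  rcases i with _ | b
  · exact data.ev_mul (c ^ p) (m * p)
  · have h := data.ev_div (ζ ^ (b : ℕ) * c) m
    have h2 : (ζ ^ (b : ℕ) * c) ^ p = c ^ p := by
      rw [mul_pow, ← pow_mul, mul_comm (b : ℕ) p, pow_mul, hζ, one_pow, one_mul]
    rw [h2] at h
    exact h

/-- The complete factorisation of `Φ(X, J(c^p • t^(m p)))` over `K((t))`. -/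
theorem ModEqData.specialize_eq_prod (data : ModEqData p) (hp : 1 < p) {ζ : Kˣ}
    (hζ : IsPrimitiveRoot ζ p) (c : Kˣ) (m : ℕ) [NeZero m] :
    specialize data.Φ (JJ (c ^ p) (m * p)) =
      ∏ i : Option (Fin p), (Polynomial.X - Polynomial.C (rootFam ζ c m i)) := by
  classical
  set P := specialize data.Φ (JJ (c ^ p) (m * p)) with hP
  have hmonic : P.Monic := specialize_monic data.monic _
  have hdeg : P.natDegree = p + 1 := by
    rw [hP, natDegree_specialize data.monic, data.natDegree_eq]
  have hinj := rootFam_injective hp hζ c m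
  set s : Finset (LaurentSeries K) := Finset.univ.image (rootFam (p := p) ζ c m) with hs
  have hcard : s.card = p + 1 := by
    rw [hs, Finset.card_image_of_injective _ hinj, Finset.card_univ, Fintype.card_option,
      Fintype.card_fin]
  have hroots : s.val ≤ P.roots := by
    rw [Multiset.le_iff_subset s.nodup]
    intro x hx
    rw [Finset.mem_val, hs, Finset.mem_image] at hx
    obtain ⟨i, -, rfl⟩ := hx
    rw [Polynomial.mem_roots hmonic.ne_zero]
    exact data.eval_rootFam hζ.pow_eq_one c m i
  have hcard' : Multiset.card P.roots ≤ Multiset.card s.val := by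
    rw [Finset.card_val, hcard, ← hdeg]
    exact Polynomial.card_roots' P
  have heq : P.roots = s.val := (Multiset.eq_of_le_of_card_le hroots hcard').symm
  have hsplit : Multiset.card P.roots = P.natDegree := by
    rw [heq, Finset.card_val, hcard, hdeg]
  have := Polynomial.prod_multiset_X_sub_C_of_monic_of_roots_card_eq hmonic hsplit
  rw [← this, heq]
  rw [hs, Finset.image_val_of_injOn hinj.injOn, Multiset.map_map]
  rfl

end RootList

end

end Fermat.Agent.S28.Kummer
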