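import Fermat.Agent.S28.Defs
import Fermat.Agent.S28.TowerDefs
import Fermat.Agent.S28.Kummer.Roots

set_option autoImplicit false

/-!
# Adapters: the interface types of S28 (`HasModEq`, `TD.ModEq`) give `Kummer.ModEqData`

So the root list `Kummer.ModEqData.specialize_eq_prod` is available from every interface shape.
Also the dictionary `TD.Jd K m = JJ 1 m`, `TD.polyAt = specialize`.
-/

namespace Fermat.Agent.S28.Kummer

open HahnSeries ModularCurve

noncomputable section

/-- `TD.polyAt` is `Kummer.specialize` (definitionally). -/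
theorem polyAt_eq_specialize {A : Type*} [CommRing A] (Φ : Polynomial (Polynomial ℤ)) (y : A) :
    Fermat.Agent.S28.TD.polyAt Φ y = specialize Φ y := rfl

theorem eval_polyAt_eq_ev {A : Type*} [CommRing A] (Φ : Polynomial (Polynomial ℤ)) (x y : A) :
    (Fermat.Agent.S28.TD.polyAt Φ y).eval x = ev Φ x y := eval_specialize Φ x y

theorem Jd_eq_JJ (K : Type*) [CommRing K] (m : ℕ) [NeZero m] :
    Fermat.Agent.S28.TD.Jd K m = JJ (1 : Kˣ) m := by
  rw [JJ_one, Fermat.Agent.S28.TD.Jd_eq_jqNModC]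

/-- The architect's interface `HasModEq p` gives the root-list input. -/
theorem modEqData_of_hasModEq {p : ℕ} [NeZero p] (h : Fermat.Agent.S28.HasModEq p) :
    Nonempty (ModEqData p) := by
  obtain ⟨_, ⟨D⟩⟩ := h
  exact ⟨{ Φ := D.Φ
           monic := D.Φ_monic
           natDegree_eq := D.Φ_natDegree
           rel₁ := D.rel₁
           rel₂ := D.rel₂ }⟩

/-- The tower interface `TD.ModEq p` gives the root-list input. -/
def ModEqData.ofTD {p : ℕ} [NeZero p] (D : Fermat.Agent.S28.TD.ModEq p) : ModEqData p where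
  Φ := D.Φ
  monic := D.monic
  natDegree_eq := D.natDegree_eq
  rel₁ := by
    have h := D.rel₂
    rw [eval_polyAt_eq_ev, Fermat.Agent.S28.TD.Jd_one,
      Fermat.Agent.S28.TD.Jd_eq_jqNModC] at h
    exact h
  rel₂ := by
    have h := D.rel₁
    rw [eval_polyAt_eq_ev, Fermat.Agent.S28.TD.Jd_one,
      Fermat.Agent.S28.TD.Jd_eq_jqNModC] at h
    exact h

@[simp]
theorem ModEqData.ofTD_Φ {p : ℕ} [NeZero p] (D : Fermat.Agent.S28.TD.ModEq p) :
    (ModEqData.ofTD D).Φ = D.Φ := rfl

theorem modEqData_of_TD {p : ℕ} [NeZero p] (h : Nonempty (Fermat.Agent.S28.TD.ModEq p)) :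
    Nonempty (ModEqData p) := by
  obtain ⟨D⟩ := h
  exact ⟨ModEqData.ofTD D⟩

end

end Fermat.Agent.S28.Kummer
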