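import Fermat.Agent.S28.Kummer.Roots
import Fermat.Agent.S28.Scale
import Fermat.Agent.S28.ModEq.Twist

set_option autoImplicit false

/-!
# Adapters for the root list of the modular equation

* comparison of `Kummer.twist`, `Kummer.JJ` with the other toolkits (`Scale.lean`, `ModEq/Twist.lean`);
* the root list in the shape `(X - r₀) * ∏ b : Fin p, (X - r b)`;
* every root of `Φ(X, J(c^p t^(pm)))` in an extension field of `K((t))` is one of the explicit ones.
-/

namespace Fermat.Agent.S28.Kummer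

open HahnSeries ModularCurve

noncomputable section

section Compare

variable {K : Type*} [Field K]

theorem twist_eq_scale (c : Kˣ) : twist c = Fermat.Agent.S28.scale c := by
  refine RingHom.ext fun f => ?_
  ext n
  rw [twist_coeff, Fermat.Agent.S28.scale_coeff]

theorem twist_eq_modEq_twist {A : Type*} [CommRing A] (c : Aˣ) :
    twist c = Fermat.Agent.S28.ModEq.twist c := by
  refine RingHom.ext fun f => ?_
  ext n
  rw [twist_coeff, Fermat.Agent.S28.ModEq.twist_coeff]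

theorem JJ_eq_Jcm (c : Kˣ) (m : ℕ) [NeZero m] : JJ c m = Fermat.Agent.S28.Jcm c m := by
  rw [JJ, Fermat.Agent.S28.Jcm, Fermat.Agent.S28.Vt_eq_qExpand, twist_eq_scale]

end Compare

section RootList

variable {K : Type*} [Field K] {p : ℕ} [NeZero p]

/-- The root list in the shape `(X - r₀) * ∏ b : Fin p, (X - r b)`. -/
theorem ModEqData.specialize_eq_mul_prod (data : ModEqData p) (hp : 1 < p) {ζ : Kˣ}
    (hζ : IsPrimitiveRoot ζ p) (c : Kˣ) (m : ℕ) [NeZero m] :
    specialize data.Φ (JJ (c ^ p) (m * p)) =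
      (Polynomial.X - Polynomial.C (JJ ((c ^ p) ^ p) (m * p * p))) *
        ∏ b : Fin p, (Polynomial.X - Polynomial.C (JJ (ζ ^ (b : ℕ) * c) m)) := by
  rw [data.specialize_eq_prod hp hζ c m, Fintype.prod_option]
  rfl

/-- The basic case `c = 1`, `m = 1`:
`Φ(X, J(t^p)) = (X - J(t^(p²))) * ∏_b (X - J(ζ^b t))`. -/
theorem ModEqData.specialize_jqNModC (data : ModEqData p) (hp : 1 < p) {ζ : Kˣ}
    (hζ : IsPrimitiveRoot ζ p) :
    specialize data.Φ (jqNModC K p) =
      (Polynomial.X - Polynomial.C (jqNModC K (p * p))) *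
        ∏ b : Fin p, (Polynomial.X - Polynomial.C (twist (ζ ^ (b : ℕ)) (jqModC K))) := by
  have h := data.specialize_eq_mul_prod hp hζ (1 : Kˣ) 1
  simp only [one_pow, one_mul, mul_one] at h
  rw [JJ_one, JJ_one] at h
  rw [h]
  congr 1
  refine Finset.prod_congr rfl fun b _ => ?_
  rw [JJ, qExpand_one_apply]

/-- Every root of `Φ(X, J(c^p t^(pm)))` in an extension field `E` of `K((t))` is one of the
`p + 1` explicit series. -/
theorem ModEqData.root_mem (data : ModEqData p) (hp : 1 < p) {ζ : Kˣ}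
    (hζ : IsPrimitiveRoot ζ p) (c : Kˣ) (m : ℕ) [NeZero m] {E : Type*} [Field E]
    (i : LaurentSeries K →+* E) {x : E}
    (hx : ev data.Φ x (i (JJ (c ^ p) (m * p))) = 0) :
    ∃ j : Option (Fin p), x = i (rootFam ζ c m j) := by
  have h1 : (specialize data.Φ (i (JJ (c ^ p) (m * p)))).eval x = 0 := by
    rw [eval_specialize]; exact hx
  rw [← map_specialize, data.specialize_eq_prod hp hζ c m, Polynomial.map_prod,
    Polynomial.eval_prod, Finset.prod_eq_zero_iff] at h1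
  obtain ⟨j, -, hj⟩ := h1
  refine ⟨j, ?_⟩
  rw [Polynomial.map_sub, Polynomial.map_X, Polynomial.map_C, Polynomial.eval_sub,
    Polynomial.eval_X, Polynomial.eval_C, sub_eq_zero] at hj
  exact hj

/-- Over an algebraically closed field `K` in which `p ≠ 0`: if `p ∣ m`, every root of
`Φ(X, J(c t^m))` in an extension field of `K((t))` is of the form `J(c' t^(m p))` or
`J(c' t^(m / p))`. -/
theorem ModEqData.exists_JJ_of_root [IsAlgClosed K] (data : ModEqData p) (hp : p.Prime)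
    (hpK : (p : K) ≠ 0) (c : Kˣ) (m : ℕ) [NeZero m] (hdvd : p ∣ m) {E : Type*} [Field E]
    (i : LaurentSeries K →+* E) {x : E} (hx : ev data.Φ x (i (JJ c m)) = 0) :
    ∃ (c' : Kˣ) (m' : ℕ) (_ : NeZero m'), x = i (JJ c' m') ∧ (m' = m * p ∨ m' * p = m) := by
  obtain ⟨m₀, rfl⟩ := hdvd
  have hm₀ : NeZero m₀ := ⟨fun h => NeZero.ne (p * m₀) (by rw [h, mul_zero])⟩
  -- a `p`-th root of `c`
  obtain ⟨c₀, hc₀⟩ : ∃ c₀ : K, c₀ ^ p = (c : K) := IsAlgClosed.exists_pow_nat_eq _ hp.pos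
  have hc₀ne : c₀ ≠ 0 := by
    rintro rfl
    rw [zero_pow hp.ne_zero] at hc₀
    exact c.ne_zero hc₀.symm
  let c₁ : Kˣ := Units.mk0 c₀ hc₀ne
  have hc₁ : c₁ ^ p = c := Units.ext (by simpa [c₁] using hc₀)
  -- a primitive `p`-th root of unity
  have : NeZero (p : K) := ⟨hpK⟩
  obtain ⟨ζ₀, hζ₀⟩ := HasEnoughRootsOfUnity.exists_primitiveRoot K p
  have hζ₀ne : ζ₀ ≠ 0 := hζ₀.ne_zero hp.ne_zero
  let ζ : Kˣ := Units.mk0 ζ₀ hζ₀ne
  have hζ : IsPrimitiveRoot ζ p := by
    have : (ζ : K) = ζ₀ := rfl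
    exact IsPrimitiveRoot.coe_units_iff.mp (by rw [this]; exact hζ₀)
  have hx' : ev data.Φ x (i (JJ (c₁ ^ p) (m₀ * p))) = 0 := by
    have : JJ (c₁ ^ p) (m₀ * p) = JJ c (p * m₀) := by
      rw [hc₁]; simp only [mul_comm m₀ p]
    rw [this]; exact hx
  obtain ⟨j, hj⟩ := data.root_mem hp.one_lt hζ c₁ m₀ i hx'
  rcases j with _ | b
  · refine ⟨(c₁ ^ p) ^ p, m₀ * p * p, inferInstance, hj, ?_⟩
    left; ring
  · refine ⟨ζ ^ (b : ℕ) * c₁, m₀, hm₀, hj, ?_⟩
    right; ring

end RootList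

end

end Fermat.Agent.S28.Kummer
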