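import Fermat.Agent.S28.Kummer.Roots
import Fermat.Agent.S28.ModEq.Conj
import Fermat.Agent.S28.ValInd

set_option autoImplicit false

/-!
# The Kronecker congruence `Φ_p(X, Y) ≡ (X - Y^p) (X^p - Y)  (mod p)`

A `ζ`-free proof from the two integral relations `Φ(j(q^p), j(q)) = 0 = Φ(j(q), j(q^p))`:
modulo `p` one has `J(q^p) = J(q)^p` (Frobenius on `𝔽_p((q))`) and `J` is transcendental, so
`Φ̄(Y^p, Y) = 0`, hence `Φ̄ = (X - Y^p) G` with `G` monic of `X`-degree `p`; the second relation
gives `G(J, J^p) = 0`, and valuation independence of `1, J, …, J^(p-1)` over `𝔽_p((q^p))` forces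
`G = X^p - Y`.
-/

namespace Fermat.Agent.S28.Kummer

open ModularCurve Polynomial

noncomputable section

section Frobenius

variable (p : ℕ) [Fact p.Prime]

/-- Frobenius on power series over `𝔽_p`: `g ^ p = g(X^p)`. -/
theorem powerSeries_pow_char (g : PowerSeries (ZMod p)) :
    g ^ p = PowerSeries.mk fun n => if p ∣ n then PowerSeries.coeff (n / p) g else 0 := by
  ext n
  rw [PowerSeries.coeff_mk]
  have h1 : PowerSeries.coeff n (g ^ p) =
      PowerSeries.coeff n
        (((PowerSeries.trunc (n + 1) g : Polynomial (ZMod p)) : PowerSeries (ZMod p)) ^ p) := by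
    have h2 := congrArg (fun q : Polynomial (ZMod p) => q.coeff n)
      (PowerSeries.trunc_trunc_pow g (n + 1) p)
    simp only [PowerSeries.coeff_trunc, if_pos (Nat.lt_succ_self n)] at h2
    exact h2.symm
  rw [h1, ← Polynomial.coe_pow, Polynomial.coeff_coe, ← ZMod.expand_card,
    Polynomial.coeff_expand (Fact.out : p.Prime).pos]
  split_ifs with h
  · rw [PowerSeries.coeff_trunc, if_pos]
    exact lt_of_le_of_lt (Nat.div_le_self n p) (Nat.lt_succ_self n)
  · rfl

/-- Frobenius on Laurent series over `𝔽_p`: `f ^ p = f(q^p)`. -/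
theorem laurent_pow_char [NeZero p] (f : LaurentSeries (ZMod p)) :
    f ^ p = qExpand (ZMod p) p f := by
  have hf := LaurentSeries.single_order_mul_powerSeriesPart f
  rw [← hf, mul_pow, map_mul, HahnSeries.single_pow, one_pow, qExpand_single, ← map_pow,
    powerSeries_pow_char, Fermat.Agent.S28.ModEq.ofPowerSeries_V, nsmul_eq_mul]

end Frobenius

section Main

variable {p : ℕ} [NeZero p]

/-- **Kronecker congruence**: `Φ_p(X, Y) ≡ (X - Y^p) (X^p - Y)` modulo `p`, as an identity in
`(ZMod p)[Y][X]` (outer variable `X`, inner variable `Y`). -/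
theorem kronecker (hp : p.Prime) (D : ModEqData p) :
    D.Φ.map (Polynomial.mapRingHom (Int.castRingHom (ZMod p))) =
      (X - C (X ^ p)) * (X ^ p - C X) := by
  classical
  have : Fact p.Prime := ⟨hp⟩
  set J : LaurentSeries (ZMod p) := jqModC (ZMod p) with hJ
  set Φ' : Polynomial (Polynomial (ZMod p)) :=
    D.Φ.map (Polynomial.mapRingHom (Int.castRingHom (ZMod p))) with hΦ'
  -- evaluation of the inner variable
  set ev1 : LaurentSeries (ZMod p) → (Polynomial (ZMod p) →+* LaurentSeries (ZMod p)) :=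
    fun y => Fermat.Agent.S28.ModEq.evalAt (RingHom.id (ZMod p)) y with hev1
  have hcomp : ∀ y : LaurentSeries (ZMod p),
      (ev1 y).comp (Polynomial.mapRingHom (Int.castRingHom (ZMod p))) = evalIn y := by
    intro y
    refine Polynomial.ringHom_ext' (RingHom.ext_int _ _) ?_
    simp [hev1, evalIn, Fermat.Agent.S28.ModEq.evalAt]
  have hev : ∀ x y : LaurentSeries (ZMod p), ev D.Φ x y = Φ'.eval₂ (ev1 y) x := by
    intro x y
    rw [hΦ', Polynomial.eval₂_map, hcomp]
    rfl
  have hev1X : ∀ y : LaurentSeries (ZMod p), ev1 y X = y := fun y =>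
    Fermat.Agent.S28.ModEq.evalAt_X _ y
  -- Frobenius
  have hJp : jqNModC (ZMod p) p = J ^ p := (laurent_pow_char p J).symm
  have hqE : ∀ (y : LaurentSeries (ZMod p)) (g : Polynomial (ZMod p)),
      ev1 (qExpand (ZMod p) p y) g = qExpand (ZMod p) p (ev1 y g) := by
    intro y g
    have h : (qExpand (ZMod p) p).comp (ev1 y) = ev1 (qExpand (ZMod p) p y) := by
      refine Polynomial.ringHom_ext (fun a => ?_) ?_
      · simp [hev1, Fermat.Agent.S28.ModEq.evalAt, HahnSeries.C_apply, qExpand_single]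
      · simp [hev1]
    exact (congrArg (fun φ : Polynomial (ZMod p) →+* LaurentSeries (ZMod p) => φ g) h).symm
  -- the two relations modulo `p`
  have hA : Φ'.eval₂ (ev1 J) (J ^ p) = 0 := by
    have h := congrArg (coeffMap (Int.castRingHom (ZMod p))) D.rel₁
    rw [map_ev, ModularCurve.coeffMap_jqNModC, ModularCurve.coeffMap_jqModC, map_zero, hJp,
      hev] at h
    exact h
  have hB : Φ'.eval₂ (ev1 (J ^ p)) J = 0 := by
    have h := congrArg (coeffMap (Int.castRingHom (ZMod p))) D.rel₂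
    rw [map_ev, ModularCurve.coeffMap_jqNModC, ModularCurve.coeffMap_jqModC, map_zero, hJp,
      hev] at h
    exact h
  -- leading terms
  have hlead1 : Fermat.Agent.S28.ModEq.IsLead J (-((1 : ℕ) : ℤ)) 1 := by
    have h := Fermat.Agent.S28.ModEq.isLead_jqModC (ZMod p)
    rw [Nat.cast_one]
    exact h
  have hleadp : Fermat.Agent.S28.ModEq.IsLead (J ^ p) (-((p : ℕ) : ℤ)) 1 := by
    have h := Fermat.Agent.S28.ModEq.isLead_qExpand p (Fermat.Agent.S28.ModEq.isLead_jqModC (ZMod p))
    rw [mul_neg, mul_one] at h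
    rw [laurent_pow_char p J]
    exact h
  have hinj1 : Function.Injective (ev1 J) :=
    Fermat.Agent.S28.ModEq.evalAt_injective one_pos hlead1 _ Function.injective_id
  have hinjp : Function.Injective (ev1 (J ^ p)) :=
    Fermat.Agent.S28.ModEq.evalAt_injective hp.pos hleadp _ Function.injective_id
  -- `Y^p` is a root of `Φ'`
  have hroot : Φ'.eval (X ^ p) = 0 := by
    apply hinj1
    rw [map_zero, ← Polynomial.eval₂_at_apply, map_pow, hev1X]
    exact hA
  obtain ⟨G, hG⟩ : (X - C (X ^ p)) ∣ Φ' := Polynomial.dvd_iff_isRoot.mpr hroot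
  have hΦmonic : Φ'.Monic := D.monic.map _
  have hGmonic : G.Monic :=
    Polynomial.Monic.of_mul_monic_left (Polynomial.monic_X_sub_C _) (hG ▸ hΦmonic)
  have hGdeg : G.natDegree = p := by
    have h1 : Φ'.natDegree = p + 1 := by rw [hΦ', D.monic.natDegree_map, D.natDegree_eq]
    rw [hG, (Polynomial.monic_X_sub_C _).natDegree_mul hGmonic, Polynomial.natDegree_X_sub_C]
      at h1
    omega
  -- `G(J, J^p) = 0`
  have hGJ : G.eval₂ (ev1 (J ^ p)) J = 0 := by
    have h := hB
    rw [hG, Polynomial.eval₂_mul] at h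
    rcases mul_eq_zero.mp h with h1 | h1
    · exfalso
      rw [Polynomial.eval₂_sub, Polynomial.eval₂_X, Polynomial.eval₂_C, map_pow, hev1X] at h1
      have h2 := congrArg (fun f : LaurentSeries (ZMod p) => f.coeff (-1)) h1
      simp only [HahnSeries.coeff_sub, HahnSeries.coeff_zero] at h2
      have h3 : ((J ^ p) ^ p).coeff (-1) = 0 := by
        rw [laurent_pow_char p (J ^ p)]
        refine qExpand_coeff_of_not_dvd p _ ?_
        rw [Int.dvd_neg]
        intro hd
        have h4 := Int.natCast_dvd_natCast.mp (by simpa using hd : ((p : ℕ) : ℤ) ∣ ((1 : ℕ) : ℤ))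
        exact hp.one_lt.ne' (Nat.dvd_one.mp h4)
      rw [h3, sub_zero, hJ, coeff_jqModC_neg_one] at h2
      exact one_ne_zero h2
    · exact h1
  -- the coefficients of `G`
  set c : Fin p → LaurentSeries (ZMod p) := fun i =>
    ev1 (J ^ p) (G.coeff i) + if (i : ℕ) = 0 then J ^ p else 0 with hc
  have hsum : ∑ t, c t * Fermat.Agent.S28.TD.Jd (ZMod p) 1 ^ (t : ℕ) = 0 := by
    rw [Fermat.Agent.S28.TD.Jd_one]
    have h1 := hGJ
    rw [Polynomial.eval₂_eq_sum_range, hGdeg, Finset.sum_range_succ] at h1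
    have h2 : G.coeff p = 1 := by
      have h5 := hGmonic.coeff_natDegree
      rwa [hGdeg] at h5
    rw [h2, map_one, one_mul] at h1
    have h3 : ∑ t : Fin p, c t * J ^ (t : ℕ) =
        ∑ i ∈ Finset.range p, (ev1 (J ^ p) (G.coeff i) + if i = 0 then J ^ p else 0) * J ^ i :=
      Fin.sum_univ_eq_sum_range
        (fun i => (ev1 (J ^ p) (G.coeff i) + if i = 0 then J ^ p else 0) * J ^ i) p
    rw [h3]
    simp only [add_mul, Finset.sum_add_distrib]
    have h4 : ∑ i ∈ Finset.range p, (if i = 0 then J ^ p else 0) * J ^ i = J ^ p := by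
      rw [Finset.sum_eq_single 0 (fun i _ hi => by rw [if_neg hi, zero_mul])
        (fun h0 => absurd (Finset.mem_range.mpr hp.pos) h0), if_pos rfl, pow_zero, mul_one]
    rw [h4]
    exact h1
  have hcrange : ∀ t (k : ℤ), ¬ ((1 * p : ℕ) : ℤ) ∣ k → (c t).coeff k = 0 := by
    intro t k hk
    rw [one_mul] at hk
    have h1 : c t = qExpand (ZMod p) p (ev1 J (G.coeff t) + if (t : ℕ) = 0 then J else 0) := by
      show ev1 (J ^ p) (G.coeff t) + (if (t : ℕ) = 0 then J ^ p else 0) = _
      rw [map_add, ← hqE, ← laurent_pow_char p J]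
      congr 1
      split_ifs
      · exact laurent_pow_char p J
      · rw [map_zero]
    rw [h1]
    exact qExpand_coeff_of_not_dvd p _ hk
  have hc0 := Fermat.Agent.S28.ValInd.valInd (ZMod p) 1 p one_ne_zero hp.ne_zero c hcrange hsum
  have hcoeff0 : G.coeff 0 = -X := by
    have h1 : ev1 (J ^ p) (G.coeff 0) +
        (if ((⟨0, hp.pos⟩ : Fin p) : ℕ) = 0 then J ^ p else 0) = 0 := hc0 ⟨0, hp.pos⟩
    rw [if_pos rfl] at h1
    have h2 : ev1 (J ^ p) (G.coeff 0 + X) = 0 := by
      rw [map_add, hev1X]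
      exact h1
    have h3 := hinjp (h2.trans (map_zero _).symm)
    exact eq_neg_of_add_eq_zero_left h3
  have hcoeffi : ∀ i, 0 < i → i < p → G.coeff i = 0 := by
    intro i hi0 hip
    have h1 : ev1 (J ^ p) (G.coeff i) +
        (if ((⟨i, hip⟩ : Fin p) : ℕ) = 0 then J ^ p else 0) = 0 := hc0 ⟨i, hip⟩
    rw [if_neg hi0.ne', add_zero] at h1
    exact hinjp (h1.trans (map_zero _).symm)
  have hGeq : G = X ^ p - C X := by
    ext1 n
    rw [Polynomial.coeff_sub, Polynomial.coeff_X_pow, Polynomial.coeff_C]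
    rcases lt_trichotomy n p with hn | hn | hn
    · rcases Nat.eq_zero_or_pos n with h0 | h0
      · subst h0
        rw [if_neg hp.ne_zero.symm, if_pos rfl, hcoeff0, zero_sub]
      · rw [if_neg hn.ne, if_neg h0.ne', hcoeffi n h0 hn, sub_zero]
    · rw [if_pos hn, if_neg (by rw [hn]; exact hp.ne_zero), sub_zero]
      have h5 := hGmonic.coeff_natDegree
      rw [hGdeg] at h5
      rw [hn]
      exact h5
    · rw [if_neg hn.ne', if_neg (by omega), sub_zero]
      exact Polynomial.coeff_eq_zero_of_natDegree_lt (by rw [hGdeg]; exact hn)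
  rw [hG, hGeq]

/-- The Kronecker congruence over `ℤ`: `Φ_p = (X - Y^p) (X^p - Y) + p Q`. -/
theorem kronecker_int (hp : p.Prime) (D : ModEqData p) :
    ∃ Q : Polynomial (Polynomial ℤ),
      D.Φ = (X - C (X ^ p)) * (X ^ p - C X) + C (C (p : ℤ)) * Q := by
  have h := kronecker hp D
  have hdvd : C (C (p : ℤ)) ∣ D.Φ - (X - C (X ^ p)) * (X ^ p - C X) := by
    rw [Polynomial.C_dvd_iff_dvd_coeff]
    intro i
    rw [Polynomial.C_dvd_iff_dvd_coeff]
    intro j
    rw [← ZMod.intCast_zmod_eq_zero_iff_dvd]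
    have h1 : (D.Φ - (X - C (X ^ p)) * (X ^ p - C X)).map
        (Polynomial.mapRingHom (Int.castRingHom (ZMod p))) = 0 := by
      rw [Polynomial.map_sub, h]
      simp
    have h2 := congrArg (fun q : Polynomial (Polynomial (ZMod p)) => (q.coeff i).coeff j) h1
    simp only [Polynomial.coeff_map, Polynomial.coe_mapRingHom, Polynomial.coeff_zero] at h2
    exact_mod_cast h2
  obtain ⟨Q, hQ⟩ := hdvd
  exact ⟨Q, by rw [← hQ]; ring⟩

end Main

end

end Fermat.Agent.S28.Kummer
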