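import Fermat.Agent.S28.ModEq.Data
import Fermat.Agent.S28.Kummer.Roots

set_option autoImplicit false

/-!
# From the WP5 export (`ModEq.ModEqData`) to the root-list input (`Kummer.ModEqData`)
-/

namespace Fermat.Agent.S28.Kummer

open HahnSeries ModularCurve

noncomputable section

theorem evalAt_id_eq_evalIn (J : LaurentSeries ℤ) :
    Fermat.Agent.S28.ModEq.evalAt (RingHom.id ℤ) J = evalIn J := by
  refine Polynomial.ringHom_ext' (RingHom.ext_int _ _) ?_
  simp [Fermat.Agent.S28.ModEq.evalAt, evalIn]

/-- The WP5 export gives the `ζ`-free integral modular equation data used for the root lists. -/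
def ModEqData.ofData {p : ℕ} [NeZero p] (D : Fermat.Agent.S28.ModEq.ModEqData p) :
    ModEqData p where
  Φ := D.Φ
  monic := D.Φ_monic
  natDegree_eq := D.Φ_natDegree
  rel₁ := by
    have h := D.E1
    rw [evalAt_id_eq_evalIn] at h
    exact h
  rel₂ := by
    have h := D.E2
    rw [evalAt_id_eq_evalIn] at h
    exact h

@[simp]
theorem ModEqData.ofData_Φ {p : ℕ} [NeZero p] (D : Fermat.Agent.S28.ModEq.ModEqData p) :
    (ModEqData.ofData D).Φ = D.Φ := rfl

end

end Fermat.Agent.S28.Kummer
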