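import Fermat.Agent.S28.Kummer.Lin
import Fermat.Agent.S28.FieldLemmas

set_option autoImplicit false

/-!
# Characteristic-zero generation in the reversed shape (task D8)

`FF ℚ (N' * p) m = FF ℚ N' (m * p) (J(q^m))`: the field `ℚ(J(q^(m d)) : d ∣ N' p)` is generated
over `ℚ(J(q^(m p d)) : d ∣ N')` by the single element `J(q^m)`.

The gcd step: `J(q^(m r c))` is the unique common root of `Φ_r(X, J(q^(m c)))` and
`Φ_p(X, J(q^(m p r c)))` (root lists over `ℂ((t))`, `q = t^r`).
-/

namespace Fermat.Agent.S28.Kummer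

open ModularCurve Polynomial

noncomputable section

/-- The embedding `ℚ((q)) → ℂ((t))`, `q ↦ t^n`. -/
def embC (n : ℕ) [NeZero n] : LaurentSeries ℚ →+* LaurentSeries ℂ :=
  (qExpand ℂ n).comp (coeffMap (algebraMap ℚ ℂ))

theorem embC_injective (n : ℕ) [NeZero n] : Function.Injective (embC n) := by
  intro x y h
  have h1 : coeffMap (algebraMap ℚ ℂ) x = coeffMap (algebraMap ℚ ℂ) y := qExpand_injective n h
  ext k
  have h2 := congrArg (fun f => f.coeff k) h1
  simp only [coeffMap_coeff] at h2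
  exact (algebraMap ℚ ℂ).injective h2

theorem embC_Jd (n : ℕ) [NeZero n] {e : ℕ} (he : e ≠ 0) :
    embC n (Fermat.Agent.S28.TD.Jd ℚ e) = Fermat.Agent.S28.TD.Jd ℂ (n * e) := by
  rw [embC, RingHom.comp_apply, Fermat.Agent.S28.TD.coeffMap_Jd,
    Fermat.Agent.S28.TD.qExpand_Jd ℂ n e he]

theorem not_natCast_mul_dvd_neg {a k : ℕ} (ha : a ≠ 0) (hk : 2 ≤ k) :
    ¬ (((a * k : ℕ) : ℤ) ∣ -(a : ℤ)) := by
  rw [Int.dvd_neg, Int.natCast_dvd_natCast]
  intro h
  have h1 := Nat.le_of_dvd (Nat.pos_of_ne_zero ha) h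
  have h2 : a * 2 ≤ a * k := Nat.mul_le_mul_left a hk
  have h3 : 0 < a := Nat.pos_of_ne_zero ha
  omega

/-- The gcd step: `J(q^(m r c)) ∈ E` as soon as `J(q^(m c)) ∈ E` and `J(q^(m p r c)) ∈ E`. -/
theorem gcd_step (E : IntermediateField ℚ (LaurentSeries ℚ)) {r p c m : ℕ} (hr : r.Prime)
    (hp : p.Prime) (hc : c ≠ 0) (hm : m ≠ 0) (Dr : Fermat.Agent.S28.TD.ModEq r)
    (Dp : Fermat.Agent.S28.TD.ModEq p)
    (h1 : Fermat.Agent.S28.TD.Jd ℚ (m * c) ∈ E)
    (h2 : Fermat.Agent.S28.TD.Jd ℚ (m * (p * (r * c))) ∈ E) :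
    Fermat.Agent.S28.TD.Jd ℚ (m * (r * c)) ∈ E := by
  classical
  have : NeZero r := ⟨hr.ne_zero⟩
  obtain ⟨ζr, hζr⟩ := exists_primitiveRoot_unit (K := ℂ) hr.ne_zero
    (by exact_mod_cast hr.ne_zero)
  obtain ⟨ζp, hζp⟩ := exists_primitiveRoot_unit (K := ℂ) hp.ne_zero
    (by exact_mod_cast hp.ne_zero)
  have hmc : m * c ≠ 0 := Nat.mul_ne_zero hm hc
  have hmrc : m * (r * c) ≠ 0 := Nat.mul_ne_zero hm (Nat.mul_ne_zero hr.ne_zero hc)
  have hm₁ : r * (m * (r * c)) ≠ 0 := Nat.mul_ne_zero hr.ne_zero hmrc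
  have : NeZero (r * (m * (r * c))) := ⟨hm₁⟩
  have hmprc : m * (p * (r * c)) ≠ 0 :=
    Nat.mul_ne_zero hm (Nat.mul_ne_zero hp.ne_zero (Nat.mul_ne_zero hr.ne_zero hc))
  -- the two root lists over `ℂ((t))`
  obtain ⟨s, hs, hxs, hsr⟩ := rootList_TD (K := ℂ) hr Dr hζr hmc
  obtain ⟨s', hs', -, hsr'⟩ := rootList_TD (K := ℂ) hp Dp hζp hm₁
  have e1 : m * c * r = r * (m * c) := by ring
  have e2 : m * c * r * r = r * (m * (r * c)) := by ring
  have e3 : r * (m * (r * c)) * p = r * (m * (p * (r * c))) := by ring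
  rw [e1] at hs
  rw [e2] at hxs hsr
  rw [e3] at hs'
  set i : E →+* LaurentSeries ℂ := (embC r).comp (algebraMap E (LaurentSeries ℚ)) with hi
  have hP : (specialize Dr.Φ (⟨_, h1⟩ : E)).map i = ∏ x ∈ s, (X - C x) := by
    rw [map_specialize]
    show specialize Dr.Φ (embC r (Fermat.Agent.S28.TD.Jd ℚ (m * c))) = _
    rw [embC_Jd r hmc, hs]
  have hQ : (specialize Dp.Φ (⟨_, h2⟩ : E)).map i =
      specialize Dp.Φ (Fermat.Agent.S28.TD.Jd ℂ (r * (m * (p * (r * c))))) := by
    rw [map_specialize]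
    show specialize Dp.Φ (embC r (Fermat.Agent.S28.TD.Jd ℚ (m * (p * (r * c))))) = _
    rw [embC_Jd r hmprc]
  have hx' : embC r (Fermat.Agent.S28.TD.Jd ℚ (m * (r * c))) ∈ s := by
    rw [embC_Jd r hmrc]
    exact hxs
  have hmem : embC r (Fermat.Agent.S28.TD.Jd ℚ (m * (r * c))) ∈ Set.range i := by
    refine Fermat.Agent.S28.FieldLemmas.mem_range_of_unique_common_root i
      (specialize Dr.Φ (⟨_, h1⟩ : E)) (specialize Dp.Φ (⟨_, h2⟩ : E)) s hP hx' ?_ ?_
    · -- `J(t^(r m r c))` is a root of `Φ_p(X, J(t^(r m r c p)))`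
      rw [hQ, embC_Jd r hmrc, ← e3]
      exact Dp.rel₁' hp.ne_zero ℂ _ hm₁
    · intro x hx hx0
      rw [embC_Jd r hmrc]
      rcases hsr x hx with h | ⟨-, hcoef⟩
      · exact h
      · exfalso
        apply hcoef
        rw [hQ, hs', Polynomial.eval_prod, Finset.prod_eq_zero_iff] at hx0
        obtain ⟨z, hz, hz0⟩ := hx0
        have hxz : x = z := by
          rw [Polynomial.eval_sub, Polynomial.eval_X, Polynomial.eval_C, sub_eq_zero] at hz0
          exact hz0
        subst hxz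
        rcases hsr' x hz with h | ⟨hrange, -⟩
        · have hne : r * (m * (r * c)) * p * p ≠ 0 :=
            Nat.mul_ne_zero (Nat.mul_ne_zero hm₁ hp.ne_zero) hp.ne_zero
          have : NeZero (r * (m * (r * c)) * p * p) := ⟨hne⟩
          rw [h, Fermat.Agent.S28.TD.Jd_eq ℂ (r * (m * (r * c)) * p * p)]
          refine qExpand_coeff_of_not_dvd _ _ ?_
          have e4 : r * (m * (r * c)) * p * p = m * c * (r * r * p * p) := by ring
          rw [e4]
          refine not_natCast_mul_dvd_neg hmc ?_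
          have h4 : 2 * 2 ≤ r * r := Nat.mul_le_mul hr.two_le hr.two_le
          have h5 : 1 ≤ p * p := Nat.mul_pos hp.pos hp.pos
          calc 2 ≤ r * r := by omega
            _ = r * r * 1 := (mul_one _).symm
            _ ≤ r * r * (p * p) := Nat.mul_le_mul_left _ h5
            _ = r * r * p * p := by ring
        · obtain ⟨w, rfl⟩ := hrange (r * (m * (r * c))) dvd_rfl
          refine qExpand_coeff_of_not_dvd _ w ?_
          have e5 : r * (m * (r * c)) = m * c * (r * r) := by ring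
          rw [e5]
          refine not_natCast_mul_dvd_neg hmc ?_
          have h4 : 2 * 2 ≤ r * r := Nat.mul_le_mul hr.two_le hr.two_le
          omega
  obtain ⟨e, he⟩ := hmem
  have h3 : (e : LaurentSeries ℚ) = Fermat.Agent.S28.TD.Jd ℚ (m * (r * c)) :=
    embC_injective r he
  rw [← h3]
  exact e.2

/-- **Task D8**: characteristic-zero generation in the reversed shape. -/
theorem generation (N' p m : ℕ) (hN' : N' ≠ 0) (hm : m ≠ 0) (hp : p.Prime)
    (hME : ∀ r : ℕ, r.Prime → r ∣ N' * p → Nonempty (Fermat.Agent.S28.TD.ModEq r)) :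
    Fermat.Agent.S28.TD.FF ℚ (N' * p) m =
      IntermediateField.adjoin ℚ
        ((Fermat.Agent.S28.TD.FF ℚ N' (m * p) : Set (LaurentSeries ℚ)) ∪
          {Fermat.Agent.S28.TD.Jd ℚ m}) := by
  set R := IntermediateField.adjoin ℚ
    ((Fermat.Agent.S28.TD.FF ℚ N' (m * p) : Set (LaurentSeries ℚ)) ∪
      {Fermat.Agent.S28.TD.Jd ℚ m}) with hR
  have key : ∀ d : ℕ, d ∣ N' * p → Fermat.Agent.S28.TD.Jd ℚ (m * d) ∈ R := by
    intro d
    induction d using Nat.strong_induction_on with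
    | _ d ih =>
      intro hd
      by_cases hpd : p ∣ d
      · obtain ⟨d₁, rfl⟩ := hpd
        have hd₁ : d₁ ∣ N' := by
          rw [mul_comm N' p] at hd
          exact (Nat.mul_dvd_mul_iff_left hp.pos).mp hd
        have h3 : Fermat.Agent.S28.TD.Jd ℚ (m * p * d₁) ∈ Fermat.Agent.S28.TD.FF ℚ N' (m * p) :=
          Fermat.Agent.S28.TD.Jd_mem_FF ℚ hd₁
        rw [← mul_assoc]
        exact IntermediateField.subset_adjoin ℚ _ (Or.inl h3)
      · by_cases hd1 : d = 1
        · subst hd1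
          rw [mul_one]
          exact IntermediateField.subset_adjoin ℚ _ (Or.inr rfl)
        · have hrp : d.minFac.Prime := Nat.minFac_prime hd1
          obtain ⟨c, hc⟩ : d.minFac ∣ d := Nat.minFac_dvd d
          generalize d.minFac = r at hrp hc
          subst hc
          have hc0 : c ≠ 0 := by
            rintro rfl
            rw [mul_zero] at hd
            exact (Nat.mul_ne_zero hN' hp.ne_zero) (Nat.eq_zero_of_zero_dvd hd)
          have hclt : c < r * c := by
            have h4 : 2 * c ≤ r * c := Nat.mul_le_mul_right c hrp.two_le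
            have h5 : 0 < c := Nat.pos_of_ne_zero hc0
            omega
          have hcdvd : c ∣ N' * p := (Dvd.intro_left r rfl).trans hd
          have hrdvd : r ∣ N' * p := (Dvd.intro c rfl).trans hd
          have hcop : Nat.Coprime (r * c) p :=
            ((Nat.Prime.coprime_iff_not_dvd hp).mpr hpd).symm
          have hdN' : r * c ∣ N' := hcop.dvd_of_dvd_mul_right hd
          obtain ⟨Dr⟩ := hME r hrp hrdvd
          obtain ⟨Dp⟩ := hME p hp (Dvd.intro_left N' rfl)
          have h1 := ih c hclt hcdvd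
          have h2 : Fermat.Agent.S28.TD.Jd ℚ (m * (p * (r * c))) ∈ R := by
            have h3 : Fermat.Agent.S28.TD.Jd ℚ (m * p * (r * c)) ∈
                Fermat.Agent.S28.TD.FF ℚ N' (m * p) := Fermat.Agent.S28.TD.Jd_mem_FF ℚ hdN'
            rw [← mul_assoc]
            exact IntermediateField.subset_adjoin ℚ _ (Or.inl h3)
          exact gcd_step R hrp hp hc0 hm Dr Dp h1 h2
  apply le_antisymm
  · show IntermediateField.adjoin ℚ _ ≤ R
    rw [IntermediateField.adjoin_le_iff]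
    rintro _ ⟨d, hd, rfl⟩
    exact key d hd
  · rw [hR, IntermediateField.adjoin_le_iff]
    rintro y (hy | hy)
    · have hle : Fermat.Agent.S28.TD.FF ℚ N' (m * p) ≤ Fermat.Agent.S28.TD.FF ℚ (N' * p) m := by
        show IntermediateField.adjoin ℚ _ ≤ _
        rw [IntermediateField.adjoin_le_iff]
        rintro _ ⟨d, hd, rfl⟩
        have hd' : d ∣ N' := hd
        have h3 : Fermat.Agent.S28.TD.Jd ℚ (m * (p * d)) ∈ Fermat.Agent.S28.TD.FF ℚ (N' * p) m :=
          Fermat.Agent.S28.TD.Jd_mem_FF ℚ (by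
            rw [mul_comm N' p]
            exact Nat.mul_dvd_mul_left p hd')
        show Fermat.Agent.S28.TD.Jd ℚ (m * p * d) ∈ _
        rw [mul_assoc]
        exact h3
      exact hle hy
    · rw [Set.mem_singleton_iff] at hy
      rw [hy]
      have h3 := Fermat.Agent.S28.TD.Jd_mem_FF ℚ (N := N' * p) (m := m) (one_dvd _)
      rwa [mul_one] at h3

end

end Fermat.Agent.S28.Kummer
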